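/-
GATE-E / E8.5 (ii) PNEW-PATCH, node (P2), file 1 (helper15): **the relative transfer commutes with
a restricted system between two groups** — the two-group twin of helper2's
`GB/B3/KerSys2.coresKK_kerSys_op` (and the relative twin of `GB/B10/L2.cores_kerSys₂_op`).

`S : CosetSys emb Γ₁ Γ₂`, `χ₁ : Γ₁ →* Δ`, `χ₂ : Γ₂ →* Δ` compatible (`Compat₂`), `π : Δ →* Δ''`,
`r₁`, `r₂` sections of `χ₁`, `χ₂` over `ker π`.  Then

  `cores_{χ₂ → πχ₂} ∘ (kerSys₂ S χ₁ χ₂).op = (kerSys₂ S (πχ₁) (πχ₂)).op ∘ cores_{χ₁ → πχ₁}`.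

Instances: the `p`-degeneracy transfers `coresq`, `coresDq` of helper83 (GB/B7/UqSqSys) at two
consecutive stages `Γ_H(θ) ≤ Γ_H(π ∘ θ)` of the Taylor–Wiles tower against the tower transfers
`GamH.coresHH` at the levels `N q` and `N` (`coresHH_coresq`, `coresHH_coresDq`).
-/
import Mathlib
import Fermat.Agent.GB.B3.GammaH2
import Fermat.Agent.GB.B7.UqSqSys

set_option autoImplicit false

open scoped MatrixGroups
open CongruenceSubgroup Matrix Matrix.SpecialLinearGroup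
open P2MW.S_ModularForm_heckeT_slash_eq_self_of_mem_Gamma0.ModularForm.HeckeSlashInvariance
open Fermat.Agent.S16_helper49 Fermat.Agent.GM.B Fermat.Agent.GM.EisClass
open Fermat.Agent.GB.B3 Fermat.Agent.GB.B3.EisGamma0 Fermat.Agent.GB.B3.GamH
open Fermat.Agent.GB.B4.Twist.KerSys2 Fermat.Agent.GB.B7.UqSq

namespace Fermat.Agent.GE8.RaiseP.P2.KKSys2

section Abstract

variable {H G : Type*} [Group H] [Group G] {emb : H →* G} {Γ₁ Γ₂ : Subgroup H}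
  {Δ Δ'' : Type} [CommGroup Δ] [Group Δ'']
  (χ₁ : Γ₁ →* Δ) (χ₂ : Γ₂ →* Δ) (π : Δ →* Δ'')

/-- compatibility passes to the quotient characters -/
theorem compat₂_comp_right {S : CosetSys emb Γ₁ Γ₂} (h : Compat₂ S χ₁ χ₂) :
    Compat₂ S (π.comp χ₁) (π.comp χ₂) := by
  intro g i
  show π (χ₁ (S.c g i)) = π (χ₂ g)
  rw [h]

variable [Fintype π.ker] (r₁ : π.ker → Γ₁) (hr₁ : ∀ δ : π.ker, χ₁ (r₁ δ) = (δ : Δ))
  (r₂ : π.ker → Γ₂) (hr₂ : ∀ δ : π.ker, χ₂ (r₂ δ) = (δ : Δ))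

/-- the reindexing `(δ, j) ↦ ((σ (r₂ δ))⁻¹ j, δ)` -/
def coresEquivKK₂ (S : CosetSys emb Γ₁ Γ₂) : π.ker × S.ι ≃ S.ι × π.ker where
  toFun p := ((S.σ (r₂ p.1)).symm p.2, p.1)
  invFun q := (q.2, S.σ (r₂ q.2) q.1)
  left_inv p := by simp
  right_inv q := by simp

omit [Fintype π.ker] in
theorem chiK_kerSys₂_c (S : CosetSys emb Γ₁ Γ₂) (h : Compat₂ S χ₁ χ₂)
    (g : kerSub (π.comp χ₂)) (j : S.ι) :
    chiK χ₁ π ((kerSys₂ S (π.comp χ₁) (π.comp χ₂) (compat₂_comp_right χ₁ χ₂ π h)).c g j)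
      = chiK χ₂ π g := by
  apply Subtype.ext
  rw [coe_chiK, coe_chiK]
  exact h (kerIncl (π.comp χ₂) g) j

/-- **the relative transfer commutes with the restricted system between two groups** -/
theorem coresKK_kerSys₂_op (hemb : Function.Injective emb) (S : CosetSys emb Γ₁ Γ₂)
    (h : Compat₂ S χ₁ χ₂) {A : Type*} [AddCommGroup A] (ψ : Additive (kerSub χ₁) →+ A) :
    (coresKK χ₂ π r₂ hr₂ emb).op A ((kerSys₂ S χ₁ χ₂ h).op A ψ)
      = (kerSys₂ S (π.comp χ₁) (π.comp χ₂) (compat₂_comp_right χ₁ χ₂ π h)).op A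
          ((coresKK χ₁ π r₁ hr₁ emb).op A ψ) := by
  rw [← CosetSys.op_comp, ← CosetSys.op_comp]
  refine CosetSys.op_eq_of_equiv
    ((coresKK χ₁ π r₁ hr₁ emb).comp
      (kerSys₂ S (π.comp χ₁) (π.comp χ₂) (compat₂_comp_right χ₁ χ₂ π h)))
    ((kerSys₂ S χ₁ χ₂ h).comp (coresKK χ₂ π r₂ hr₂ emb)) hemb (coresEquivKK₂ π r₂ S)
    1 (fun x => by rw [one_mul, mul_one])
    (fun (p : π.ker × S.ι) =>
      kerMk χ₁ (S.c (r₂ p.1) ((S.σ (r₂ p.1)).symm p.2) * (r₁ p.1)⁻¹) (by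
        rw [map_mul, h, map_inv, hr₁ p.1, hr₂ p.1, mul_inv_cancel])) ?_ ?_ ψ
  · rintro ⟨(δ : π.ker), (j : S.ι)⟩
    show S.a ((S.σ (r₂ δ)).symm j) * emb ((r₂ δ : Γ₂) : H)
      = 1 * emb (((S.c (r₂ δ) ((S.σ (r₂ δ)).symm j) * (r₁ δ)⁻¹ : Γ₁)) : H)
        * (emb ((r₁ δ : Γ₁) : H) * S.a j)
    rw [one_mul, S.rel (r₂ δ) ((S.σ (r₂ δ)).symm j), Equiv.apply_symm_apply, ← mul_assoc, ← map_mul,
      ← Subgroup.coe_mul, inv_mul_cancel_right]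
  · rintro g ⟨(δ : π.ker), (j : S.ι)⟩
    show (S.σ (kerIncl χ₂ (coresCC χ₂ π r₂ hr₂ g δ)) ((S.σ (r₂ δ)).symm j), δ * chiK χ₂ π g)
      = ((S.σ (r₂ (δ * chiK χ₁ π ((kerSys₂ S (π.comp χ₁) (π.comp χ₂)
            (compat₂_comp_right χ₁ χ₂ π h)).c g j)))).symm (S.σ (kerIncl (π.comp χ₂) g) j),
        δ * chiK χ₁ π ((kerSys₂ S (π.comp χ₁) (π.comp χ₂)
            (compat₂_comp_right χ₁ χ₂ π h)).c g j))
    rw [chiK_kerSys₂_c χ₁ χ₂ π S h, kerIncl_coresCC, S.hσ, S.hσ, Equiv.apply_symm_apply,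
      sigma_inv_eq_symm]

end Abstract

/-! ### the `p`-degeneracy transfers and one step of the tower -/

section Inst

variable {N q : ℕ} [Fact q.Prime] {Δ Δ'' : Type} [CommGroup Δ] [CommGroup Δ'']
  (θ' : (ZMod N)ˣ →* Δ) (π : Δ →* Δ'') [Fintype π.ker] (hqN : ¬ q ∣ N)
  (rep : π.ker → Gamma0 N) (hrep : ∀ δ : π.ker, chi θ' (rep δ) = (δ : Δ))
  (repq : π.ker → Gamma0 (N * q)) (hrepq : ∀ δ : π.ker, chi (thQ θ' q) (repq δ) = (δ : Δ))
  {A : Type*} [AddCommGroup A]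

/-- **`cores_{θ' → πθ'} ∘ α_*^{θ'} = α_*^{πθ'} ∘ cores_{θ → πθ}`**: the transfer `coresq` commutes
with one step of the tower -/
theorem coresHH_coresq (ψ : Additive (GammaH (thQ θ' q)) →+ A) :
    coresHH θ' π rep hrep A (coresq θ' hqN A ψ)
      = coresq (π.comp θ') hqN A (coresHH (thQ θ' q) π repq hrepq A ψ) :=
  coresKK_kerSys₂_op (chi (thQ θ' q)) (chi θ') π repq hrepq rep hrep embR_injective
    (coresSys hqN (bez hqN).1 (bez hqN).2 (bez_spec hqN))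
    (compat_coresSys θ' hqN (bez hqN).1 (bez hqN).2 (bez_spec hqN)) ψ

/-- **`cores_{θ' → πθ'} ∘ β_*^{θ'} = β_*^{πθ'} ∘ cores_{θ → πθ}`** -/
theorem coresHH_coresDq (ψ : Additive (GammaH (thQ θ' q)) →+ A) :
    coresHH θ' π rep hrep A (coresDq θ' hqN A ψ)
      = coresDq (π.comp θ') hqN A (coresHH (thQ θ' q) π repq hrepq A ψ) :=
  coresKK_kerSys₂_op (chi (thQ θ' q)) (chi θ') π repq hrepq rep hrep embR_injective
    (coresDSys hqN (bez hqN).1 (bez hqN).2 (bez_spec hqN))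
    (compat_coresDSys θ' hqN (bez hqN).1 (bez hqN).2 (bez_spec hqN)) ψ

end Inst

end Fermat.Agent.GE8.RaiseP.P2.KKSys2
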