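/-
GATE-E / E8.5 (ii) PNEW-PATCH, node (P2), file 5 (helper15): **the `p`-direction morphisms of levels
out of ANY realised big level** (in particular `GB/B3/Plug.bigLevel`), in helper80's binder shape
`NewLevel.LevelHom`.

`Pair.exists_levelHom_pair` produces ONE pair of pinned levels `F₂` (level `N q`), `G` (level `N`)
with the morphisms `α_* = coresq`, `β_* = coresDq`.  helper74's `Repin.exists_twist` compares any
other level `F` realised in the same ambient module with `F₂`: the projection of `F` is re-pinned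
by an automorphism `u` of the base module (`Repin.twistπ F u hu`: SAME `M`, `act`, `D`).

The characters at level `N q` are given up to a propositional equality (`ψ i = thQ (ψ' i) q`, e.g.
`TWChars.PrimeData.psi`, `LocTransport.psi_eq_infl`), with the transport `castΘ` of classes along
`hΘ j : Theta Δs ψ j = thQ (Theta Δs ψ' j) q` (`LocTransport.Theta_eq_infl`).

* `castΘ`, `castLin` : transport of classes along an equality of characters;
* `f0αE`, `f0βE` : the base maps `α_*`, `β_*` on the `𝔪`-primary parts at stage `0`;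
* `exists_levelHom_of_eq` : for ANY `F`, `R` at level `N q`: `u`, `G`, `R'` and
  `φα : LevelHom (twistπ F u hu) G f0αE`, `φβ : LevelHom (twistπ F u hu) G f0βE` with
  `R'.ι (φα.f x) = coresq (castΘ (R.ι x))`, `R'.ι (φβ.f x) = coresDq (castΘ (R.ι x))`;
* `exists_levelHom_primeData` : the instance at helper46's `TWChars.PrimeData` (`q := p`).
-/
import Mathlib
import Fermat.Agent.GB.B3.Plug
import Fermat.Agent.GE8.RaiseP.P2.Pair
import Fermat.Agent.GE8.RaiseP.P2.Repin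

set_option autoImplicit false
set_option linter.unusedSectionVars false
set_option linter.style.haveILetI false

open scoped MatrixGroups
open CongruenceSubgroup

namespace Fermat.Agent.GE8.RaiseP.P2.Main

open Fermat.Agent.GM.B Fermat.Agent.GM.Amalgam Fermat.Agent.GB.B3 Fermat.Agent.GB.B3.EisGamma0
  Fermat.Agent.GB.B3.TWLevel Fermat.Agent.GB.B3.RealLevel Fermat.Agent.GB.B3.HeckeActH
  Fermat.Agent.GB.B3.HeckeAct Fermat.Agent.GB.B3.StepInst Fermat.Agent.GB.B3.Tower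
  Fermat.Agent.GB.B3.TWChars Fermat.Agent.GB.B3.FinalTW Fermat.Agent.GB.B3.Final
  Fermat.Agent.GB.B3.LocTransport Fermat.Agent.GB.B3.LocTransportInst
  Fermat.Agent.GB.B3.LocTransportInstD Fermat.Agent.GB.B7.UqSq
  Fermat.Agent.GE8.RaiseP.NewLevel Fermat.Agent.GE8.RaiseP.P2.StepPin
  Fermat.Agent.GE8.RaiseP.P2.TowerPin Fermat.Agent.GE8.RaiseP.P2.Pair
  Fermat.Agent.GE8.RaiseP.P2.Repin

/-! ### transport along an equality of characters -/

section Cast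

variable {N : ℕ} {Δ : Type} [CommGroup Δ]

/-- transport of classes along an equality of characters -/
noncomputable def castΘ {θ θ₂ : (ZMod N)ˣ →* Δ} (h : θ = θ₂) (O : Type*) [AddCommGroup O] :
    (Additive (GamH.GammaH θ) →+ O) →+ (Additive (GamH.GammaH θ₂) →+ O) :=
  h ▸ AddMonoidHom.id _

@[simp] theorem castΘ_rfl (θ : (ZMod N)ˣ →* Δ) (O : Type*) [AddCommGroup O]
    (v : Additive (GamH.GammaH θ) →+ O) : castΘ (rfl : θ = θ) O v = v := rfl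

/-- the transport, as an `O`-linear map -/
noncomputable def castLin {θ θ₂ : (ZMod N)ˣ →* Δ} (h : θ = θ₂) (O : Type*) [CommRing O] :
    (Additive (GamH.GammaH θ) →+ O) →ₗ[O] (Additive (GamH.GammaH θ₂) →+ O) :=
  h ▸ LinearMap.id

theorem castLin_apply {θ θ₂ : (ZMod N)ˣ →* Δ} (h : θ = θ₂) (O : Type*) [CommRing O]
    (v : Additive (GamH.GammaH θ) →+ O) : castLin h O v = castΘ h O v := by
  subst h
  rfl

/-- the transport preserves the primary parts -/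
theorem isLoc_castLin (Sy : Symbols N) {θ θ₂ : (ZMod N)ˣ →* Δ} (h : θ = θ₂) {O : Type}
    [CommRing O] (𝔪 : Ideal (Sy.𝕋 O)) {x : Additive (GamH.GammaH θ) →+ O}
    (hx : IsLoc (actH Sy O θ) 𝔪 x) : IsLoc (actH Sy O θ₂) 𝔪 (castLin h O x) := by
  subst h
  exact hx

end Cast

/-- transport of a morphism of levels along an equality of base maps -/
def levelHomCongr {O : Type} [CommRing O] [IsLocalRing O] {𝕋 : Type} [CommRing 𝕋] [Algebra O 𝕋]
    {M0 : Type} [AddCommGroup M0] [Module O M0] {act0 : 𝕋 →ₐ[O] Module.End O M0}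
    {P0 : Type} [AddCommGroup P0] [Module O P0] {actP0 : 𝕋 →ₐ[O] Module.End O P0}
    {k : ℕ} {Nk : Fin k → ℕ} {F : FreeLevel O 𝕋 M0 act0 k Nk} {G : FreeLevel O 𝕋 P0 actP0 k Nk}
    {f0 f0' : M0 →ₗ[O] P0} (φ : LevelHom F G f0) (h : f0 = f0') : LevelHom F G f0' where
  f := φ.f
  f_D := φ.f_D
  f_act := φ.f_act
  f_π x := h ▸ φ.f_π x

section Towers

variable {N q : ℕ} [NeZero N] [NeZero (N * q)] [Fact q.Prime] (hqN : ¬ q ∣ N)
variable (Δs : ℕ → Type) [∀ i, CommGroup (Δs i)] [∀ i, Fintype (Δs i)]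
  (ψ' : ∀ i, (ZMod N)ˣ →* Δs i)
variable (Sy : Symbols (N * q)) (hrN : ∀ j, Sy.r j ∣ N)
variable {O : Type} [CommRing O] [IsDomain O] [IsPrincipalIdealRing O] [IsLocalRing O]
  [IsAdicComplete (IsLocalRing.maximalIdeal O) O] [Module.IsTorsionFree ℤ O]
variable (𝔪 : Ideal (Sy.𝕋 O)) [𝔪.IsMaximal]
variable (ψ : ∀ i, (ZMod (N * q))ˣ →* Δs i)

/-- the base map `α_*` on the `𝔪`-primary parts at stage `0`, characters up to equality -/
noncomputable def f0αE (hΘ0 : Theta Δs ψ 0 = thQ (Theta Δs ψ' 0) q) :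
    ↥(Base.locSub (actH Sy O (Theta Δs ψ 0)) 𝔪) →ₗ[O]
      ↥(Base.locSub (actH (restrict Sy hrN) O (Theta Δs ψ' 0)) 𝔪) :=
  ((coresqLin (Theta Δs ψ' 0) hqN O) ∘ₗ castLin hΘ0 O).restrict
    (fun _ hx => isLoc_coresq Sy hrN (Theta Δs ψ' 0) hqN 𝔪 (isLoc_castLin Sy hΘ0 𝔪 hx))

/-- the base map `β_*` on the `𝔪`-primary parts at stage `0`, characters up to equality -/
noncomputable def f0βE (hΘ0 : Theta Δs ψ 0 = thQ (Theta Δs ψ' 0) q) :
    ↥(Base.locSub (actH Sy O (Theta Δs ψ 0)) 𝔪) →ₗ[O]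
      ↥(Base.locSub (actH (restrict Sy hrN) O (Theta Δs ψ' 0)) 𝔪) :=
  ((coresDqLin (Theta Δs ψ' 0) hqN O) ∘ₗ castLin hΘ0 O).restrict
    (fun _ hx => isLoc_coresDq Sy hrN (Theta Δs ψ' 0) hqN 𝔪 (isLoc_castLin Sy hΘ0 𝔪 hx))

omit [NeZero N] [NeZero (N * q)] [∀ i, Fintype (Δs i)] [IsDomain O] [IsPrincipalIdealRing O]
  [IsLocalRing O] [IsAdicComplete (IsLocalRing.maximalIdeal O) O] [Module.IsTorsionFree ℤ O]
  [𝔪.IsMaximal] in
theorem coe_f0αE (hΘ0 : Theta Δs ψ 0 = thQ (Theta Δs ψ' 0) q)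
    (y : ↥(Base.locSub (actH Sy O (Theta Δs ψ 0)) 𝔪)) :
    ((f0αE hqN Δs ψ' Sy hrN 𝔪 ψ hΘ0 y :
        ↥(Base.locSub (actH (restrict Sy hrN) O (Theta Δs ψ' 0)) 𝔪)) :
        Additive (GamH.GammaH (Theta Δs ψ' 0)) →+ O)
      = coresq (Theta Δs ψ' 0) hqN O (castΘ hΘ0 O y.1) := by
  rw [← castLin_apply]
  rfl

omit [NeZero N] [NeZero (N * q)] [∀ i, Fintype (Δs i)] [IsDomain O] [IsPrincipalIdealRing O]
  [IsLocalRing O] [IsAdicComplete (IsLocalRing.maximalIdeal O) O] [Module.IsTorsionFree ℤ O]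
  [𝔪.IsMaximal] in
theorem coe_f0βE (hΘ0 : Theta Δs ψ 0 = thQ (Theta Δs ψ' 0) q)
    (y : ↥(Base.locSub (actH Sy O (Theta Δs ψ 0)) 𝔪)) :
    ((f0βE hqN Δs ψ' Sy hrN 𝔪 ψ hΘ0 y :
        ↥(Base.locSub (actH (restrict Sy hrN) O (Theta Δs ψ' 0)) 𝔪)) :
        Additive (GamH.GammaH (Theta Δs ψ' 0)) →+ O)
      = coresDq (Theta Δs ψ' 0) hqN O (castΘ hΘ0 O y.1) := by
  rw [← castLin_apply]
  rfl

/-- **the `p`-direction morphisms of levels out of ANY realised level at level `N q`** -/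
theorem exists_levelHom_of_eq (hψ : ∀ i, ψ i = thQ (ψ' i) q)
    (hΘ : ∀ j, Theta Δs ψ j = thQ (Theta Δs ψ' j) q)
    (ϖ : O) (hϖ0 : ϖ ≠ 0) (hmax : IsLocalRing.maximalIdeal O = Ideal.span {ϖ})
    (p : ℕ) (hp : p.Prime) (hpϖ : (p : O) ∈ Ideal.span {ϖ}) (hp0 : (p : O) ≠ 0)
    (hp2 : p ≠ 2) (hp3 : p ≠ 3) (n : ℕ → ℕ) (dd : ℕ → Gamma0 (N * q))
    (hcard : ∀ i, Fintype.card (Δs i) = p ^ n i)
    (hord : ∀ i, orderOf (ψ i (dUnits (N * q) (dd i))) = p ^ n i)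
    (hoff : ∀ i j, i ≠ j → ψ i (dUnits (N * q) (dd j)) = 1)
    (hneg : ∀ i, ψ i (-1) = 1)
    (s0 : Sy.ι₁) (hτ : tauOf Sy O s0 ∉ 𝔪) (j : ℕ)
    (F : FreeLevel O (Sy.𝕋 O) (Base.locSub (actH Sy O (Theta Δs ψ 0)) 𝔪)
      (Base.locSubAct (actH Sy O (Theta Δs ψ 0)) 𝔪) j (Nfun p n j))
    (R : Realizes F (actH Sy O (Theta Δs ψ j)) 𝔪
      (fun i => diaLin O (Theta Δs ψ j) (dfun dd j i))) :
    ∃ (u : ↥(Base.locSub (actH Sy O (Theta Δs ψ 0)) 𝔪) ≃ₗ[O]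
          ↥(Base.locSub (actH Sy O (Theta Δs ψ 0)) 𝔪))
      (hu : ∀ t x, u (Base.locSubAct (actH Sy O (Theta Δs ψ 0)) 𝔪 t x)
        = Base.locSubAct (actH Sy O (Theta Δs ψ 0)) 𝔪 t (u x))
      (G : FreeLevel O (Sy.𝕋 O)
          (Base.locSub (actH (restrict Sy hrN) O (Theta Δs ψ' 0)) 𝔪)
          (Base.locSubAct (actH (restrict Sy hrN) O (Theta Δs ψ' 0)) 𝔪) j (Nfun p n j))
      (R' : Realizes G (actH (restrict Sy hrN) O (Theta Δs ψ' j)) 𝔪
          (fun i => diaLin O (Theta Δs ψ' j) (dfun (ddN dd) j i)))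
      (φα : LevelHom (twistπ F u hu) G (f0αE hqN Δs ψ' Sy hrN 𝔪 ψ (hΘ 0)))
      (φβ : LevelHom (twistπ F u hu) G (f0βE hqN Δs ψ' Sy hrN 𝔪 ψ (hΘ 0))),
      (∀ x : F.M, R'.ι (φα.f x) = coresq (Theta Δs ψ' j) hqN O (castΘ (hΘ j) O (R.ι x))) ∧
      (∀ x : F.M, R'.ι (φβ.f x) = coresDq (Theta Δs ψ' j) hqN O (castΘ (hΘ j) O (R.ι x))) := by
  obtain rfl : ψ = ψq (q := q) Δs ψ' := funext hψ
  have hcast : ∀ (j : ℕ) (v : Additive (GamH.GammaH (Theta Δs (ψq (q := q) Δs ψ') j)) →+ O),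
      castΘ (hΘ j) O v = v := fun j v => castΘ_rfl _ O v
  have hnegN : ∀ i, ψ' i (-1) = 1 := fun i => by
    have h1 : ZMod.unitsMap (Nat.dvd_mul_right N q) (-1) = -1 := by
      apply Units.ext
      rw [ZMod.unitsMap_val, Units.val_neg, Units.val_one, Units.val_neg, Units.val_one]
      simp
    rw [← h1]
    exact hneg i
  have hpair := exists_levelHom_pair hqN Δs ψ' Sy hrN 𝔪 ϖ hϖ0 hmax
    p hp hpϖ hp0 hp2 hp3 n dd hcard hord hoff hnegN s0 hτ j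
  obtain ⟨F₂, R₂, G, R', φα₂, φβ₂, hα, hβ⟩ := hpair
  have htw := exists_twist R R₂
  obtain ⟨e, u, heι, heD, heact, hu, heπ⟩ := htw
  have hf0α : f0α hqN Δs ψ' Sy hrN 𝔪 = f0αE hqN Δs ψ' Sy hrN 𝔪 (ψq (q := q) Δs ψ') (hΘ 0) := by
    refine LinearMap.ext fun y => Subtype.ext ?_
    rw [coe_f0αE, hcast]
    rfl
  have hf0β : f0β hqN Δs ψ' Sy hrN 𝔪 = f0βE hqN Δs ψ' Sy hrN 𝔪 (ψq (q := q) Δs ψ') (hΘ 0) := by
    refine LinearMap.ext fun y => Subtype.ext ?_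
    rw [coe_f0βE, hcast]
    rfl
  refine ⟨u, hu, G, R', levelHomCongr (φα₂.repin e u hu heD heact heπ) hf0α,
    levelHomCongr (φβ₂.repin e u hu heD heact heπ) hf0β, ?_, ?_⟩
  · intro x
    show R'.ι (φα₂.f (e x)) = _
    rw [hα, heι, hcast]
  · intro x
    show R'.ι (φβ₂.f (e x)) = _
    rw [hβ, heι, hcast]

end Towers

/-! ### the instance at the Taylor–Wiles prime data -/

section PrimeData

variable {Nl p : ℕ} [NeZero Nl] [NeZero (Nl * p)] [hpF : Fact p.Prime] (hpNl : ¬ p ∣ Nl)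
  {Kk : ℕ} {r e N' N'₀ : ℕ → ℕ}
variable (Sy : Symbols (Nl * p)) (hrN : ∀ j, Sy.r j ∣ Nl)
variable {O : Type} [CommRing O] [IsDomain O] [IsPrincipalIdealRing O] [IsLocalRing O]
  [IsAdicComplete (IsLocalRing.maximalIdeal O) O] [Module.IsTorsionFree ℤ O]
variable (𝔪 : Ideal (Sy.𝕋 O)) [𝔪.IsMaximal]
variable (H : PrimeData (Nl * p) p Kk r e N') (H₀ : PrimeData Nl p Kk r e N'₀)
  {ϖ : O} {s0 : Sy.ι₁} (h : Plug.Hyp Sy 𝔪 p ϖ s0)

include h in
/-- **the `p`-direction morphisms of levels out of ANY big level at the prime data `H`** (level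
`Nl p`; e.g. `F := Plug.bigLevel Sy 𝔪 H h j`, `R := Plug.bigReal Sy 𝔪 H h j`), to a level at the
descended prime data `H₀` (level `Nl`) -/
theorem exists_levelHom_primeData (j : ℕ)
    (F : FreeLevel O (Sy.𝕋 O) (M0 Sy 𝔪 (Δs p e) H.psi) (act0 Sy 𝔪 (Δs p e) H.psi) j (Nfun p e j))
    (R : Realizes F (actH Sy O (Theta (Δs p e) H.psi j)) 𝔪
      (fun i => diaLin O (Theta (Δs p e) H.psi j) (dfun (H.dd hpF.out) j i))) :
    ∃ (u : M0 Sy 𝔪 (Δs p e) H.psi ≃ₗ[O] M0 Sy 𝔪 (Δs p e) H.psi)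
      (hu : ∀ t x, u (act0 Sy 𝔪 (Δs p e) H.psi t x) = act0 Sy 𝔪 (Δs p e) H.psi t (u x))
      (G : FreeLevel O (Sy.𝕋 O)
          (Base.locSub (actH (restrict Sy hrN) O (Theta (Δs p e) H₀.psi 0)) 𝔪)
          (Base.locSubAct (actH (restrict Sy hrN) O (Theta (Δs p e) H₀.psi 0)) 𝔪) j
          (Nfun p e j))
      (R' : Realizes G (actH (restrict Sy hrN) O (Theta (Δs p e) H₀.psi j)) 𝔪
          (fun i => diaLin O (Theta (Δs p e) H₀.psi j) (dfun (ddN (H.dd hpF.out)) j i)))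
      (φα : LevelHom (twistπ F u hu) G
        (f0αE hpNl (Δs p e) H₀.psi Sy hrN 𝔪 H.psi (Theta_eq_infl H H₀ 0)))
      (φβ : LevelHom (twistπ F u hu) G
        (f0βE hpNl (Δs p e) H₀.psi Sy hrN 𝔪 H.psi (Theta_eq_infl H H₀ 0))),
      (∀ x : F.M, R'.ι (φα.f x)
        = coresq (Theta (Δs p e) H₀.psi j) hpNl O (castΘ (Theta_eq_infl H H₀ j) O (R.ι x))) ∧
      (∀ x : F.M, R'.ι (φβ.f x)
        = coresDq (Theta (Δs p e) H₀.psi j) hpNl O (castΘ (Theta_eq_infl H H₀ j) O (R.ι x))) :=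
  exists_levelHom_of_eq hpNl (Δs p e) H₀.psi Sy hrN 𝔪 H.psi (psi_eq_infl H H₀)
    (Theta_eq_infl H H₀) ϖ h.hϖ0 h.hmax p hpF.out h.hpϖ h.hp0 h.hp2 h.hp3 e (H.dd hpF.out)
    (fun i => by rw [← Nat.card_eq_fintype_card]; exact H.card_target hpF.out i)
    (H.orderOf_psi_dd hpF.out) (H.psi_dd_of_ne hpF.out) (H.psi_neg_one hpF.out h.hp2) s0 h.hτ j F R

end PrimeData

end Fermat.Agent.GE8.RaiseP.P2.Main
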