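/-
GATE-E (S59 pre-work) / node E8.5 (ii) PNEW-PATCH, leaf (P2) slice (D) (helper74, for helper15;
claims row GE8-PNEW-P2-REPIN): **re-pinning the projection of a realised Taylor–Wiles level.**

`Plug.bigLevel` is a `Classical.choose`; its realisation `Realizes` pins `M`, `act`, `D` inside the
ambient Hecke module but NOT the projection `π` onto the coinvariants.  Two levels realised in the
same ambient module (same `𝔪`, same diamond operators) are canonically isomorphic, and their
projections differ by an `act0`-equivariant automorphism `u` of the base module: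

* `twistπ F u hu`     : the level `F` with `π` replaced by `u ∘ π` (same `M`, `act`, `D`, `d`, `e`,
  `basis`; `basis0 := F.basis0.map u`), all API lemmas `rfl`;
* `exists_twist R R₂` : the comparison `e : F.M ≃ F₂.M` (with `R₂.ι ∘ e = R.ι`, equivariant for the
  diamonds and the Hecke action) and `u : M0 ≃ M0` (`act0`-equivariant) with `F₂.π ∘ e = u ∘ F.π`;
* `LevelHom.repin`    : a morphism of levels out of `F₂` gives one out of `twistπ F u hu`
  (`f := φ₂.f ∘ e`), over the SAME base map `f0`.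

Mathlib + `GB/B3/{TWLevel, Realizes}` + `GE8/RaiseP/NewLevel` only.
-/
import Mathlib
import Fermat.Agent.GB.B3.TWLevel
import Fermat.Agent.GB.B3.Realizes
import Fermat.Agent.GE8.RaiseP.NewLevel

set_option autoImplicit false
set_option linter.unusedSectionVars false

namespace Fermat.Agent.GE8.RaiseP.P2.Repin

open Module Fermat.Agent.GB.B3.TWLevel Fermat.Agent.GB.B3.RealLevel
  Fermat.Agent.GE8.RaiseP.NewLevel

/-! ### (D1) twisting the projection by an automorphism of the base module -/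

section Twist

variable {O : Type} [CommRing O] {𝕋 : Type} [CommRing 𝕋] [Algebra O 𝕋]
  {M0 : Type} [AddCommGroup M0] [Module O M0] {act0 : 𝕋 →ₐ[O] Module.End O M0}
  {k : ℕ} {N : Fin k → ℕ}

/-- **the level `F` with its projection re-pinned**: `π` is replaced by `u ∘ π` for an
`act0`-equivariant automorphism `u` of the base module; everything else is unchanged. -/
noncomputable def twistπ (F : FreeLevel O 𝕋 M0 act0 k N) (u : M0 ≃ₗ[O] M0)
    (hu : ∀ t x, u (act0 t x) = act0 t (u x)) : FreeLevel O 𝕋 M0 act0 k N where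
  M := F.M
  act := F.act
  D := F.D
  D_pow := F.D_pow
  D_comm := F.D_comm
  act_D := F.act_D
  d := F.d
  e := F.e
  basis := F.basis
  basis_eq := F.basis_eq
  π := u.toLinearMap ∘ₗ F.π
  π_surjective := u.surjective.comp F.π_surjective
  ker_π := fun x => by
    rw [← F.ker_π]
    exact u.map_eq_zero_iff
  π_act := fun t x => by
    change u (F.π (F.act t x)) = act0 t (u (F.π x))
    rw [F.π_act, hu]
  basis0 := F.basis0.map u
  basis0_eq := fun j => by
    rw [Basis.map_apply, F.basis0_eq]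
    rfl

variable (F : FreeLevel O 𝕋 M0 act0 k N) (u : M0 ≃ₗ[O] M0)
  (hu : ∀ t x, u (act0 t x) = act0 t (u x))

theorem twistπ_M : (twistπ F u hu).M = F.M := rfl

theorem twistπ_act : (twistπ F u hu).act = F.act := rfl

theorem twistπ_D : (twistπ F u hu).D = F.D := rfl

theorem twistπ_d : (twistπ F u hu).d = F.d := rfl

theorem twistπ_e : (twistπ F u hu).e = F.e := rfl

theorem twistπ_basis : (twistπ F u hu).basis = F.basis := rfl

theorem twistπ_π_apply (x : F.M) : (twistπ F u hu).π x = u (F.π x) := rfl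

theorem twistπ_basis0_apply (j : Fin F.d) : (twistπ F u hu).basis0 j = u (F.basis0 j) :=
  Basis.map_apply _ _ _

/-- a realisation of `F` is a realisation of the re-pinned level (same `ι`). -/
noncomputable def realizesTwist {L : Type} [AddCommGroup L] [Module O L] {actL : 𝕋 →ₐ[O] Module.End O L}
    {𝔪 : Ideal 𝕋} {E : Fin k → Module.End O L} (R : Realizes F actL 𝔪 E) :
    Realizes (twistπ F u hu) actL 𝔪 E where
  ι := R.ι
  inj := R.inj
  range := R.range
  ι_act := R.ι_act
  ι_D := R.ι_D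

theorem realizesTwist_ι {L : Type} [AddCommGroup L] [Module O L]
    {actL : 𝕋 →ₐ[O] Module.End O L} {𝔪 : Ideal 𝕋} {E : Fin k → Module.End O L}
    (R : Realizes F actL 𝔪 E) (x : F.M) : (realizesTwist F u hu R).ι x = R.ι x := rfl

end Twist

/-! ### (D2) two levels realised in the same ambient module -/

section Compare

variable {O : Type} [CommRing O] {𝕋 : Type} [CommRing 𝕋] [Algebra O 𝕋]
  {M0 : Type} [AddCommGroup M0] [Module O M0] {act0 : 𝕋 →ₐ[O] Module.End O M0}
  {k : ℕ} {N : Fin k → ℕ} {F F₂ : FreeLevel O 𝕋 M0 act0 k N}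

/-- an equivariant isomorphism carries the augmentation submodule onto the augmentation
submodule. -/
theorem mem_iSup_range_iff (e : F.M ≃ₗ[O] F₂.M) (he : ∀ i x, e (F.D i x) = F₂.D i (e x))
    (x : F.M) :
    e x ∈ (⨆ i, LinearMap.range (F₂.D i - 1)) ↔ x ∈ ⨆ i, LinearMap.range (F.D i - 1) := by
  have hmap : (⨆ i, LinearMap.range (F.D i - 1)).map e.toLinearMap =
      ⨆ i, LinearMap.range (F₂.D i - 1) := by
    rw [Submodule.map_iSup]
    refine iSup_congr fun i => ?_
    apply le_antisymm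
    · rintro _ ⟨_, ⟨y, rfl⟩, rfl⟩
      refine ⟨e y, ?_⟩
      change F₂.D i (e y) - e y = e (F.D i y - y)
      rw [map_sub, he]
    · rintro _ ⟨y, rfl⟩
      refine ⟨F.D i (e.symm y) - e.symm y, ⟨e.symm y, rfl⟩, ?_⟩
      change e (F.D i (e.symm y) - e.symm y) = F₂.D i y - y
      rw [map_sub, he, e.apply_symm_apply]
  rw [← hmap]
  constructor
  · rintro ⟨y, hy, hyx⟩
    have : y = x := e.injective hyx
    rwa [← this]
  · intro hx
    exact ⟨x, hx, rfl⟩

variable {L : Type} [AddCommGroup L] [Module O L] {actL : 𝕋 →ₐ[O] Module.End O L}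
  {𝔪 : Ideal 𝕋} {E : Fin k → Module.End O L}

/-- **two levels realised in the same ambient module differ by a re-pinning**: the canonical
comparison `e = R₂.ι⁻¹ ∘ R.ι` is equivariant, and the two projections differ by an
`act0`-equivariant automorphism `u` of the base module. -/
theorem exists_twist (R : Realizes F actL 𝔪 E) (R₂ : Realizes F₂ actL 𝔪 E) :
    ∃ (e : F.M ≃ₗ[O] F₂.M) (u : M0 ≃ₗ[O] M0),
      (∀ x, R₂.ι (e x) = R.ι x) ∧ (∀ i x, e (F.D i x) = F₂.D i (e x)) ∧
      (∀ t x, e (F.act t x) = F₂.act t (e x)) ∧ (∀ t x, u (act0 t x) = act0 t (u x)) ∧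
      (∀ x, F₂.π (e x) = u (F.π x)) := by
  -- the comparison isomorphism
  have hrange : LinearMap.range R.ι = LinearMap.range R₂.ι := by
    ext x
    rw [R.range, R₂.range]
  let e : F.M ≃ₗ[O] F₂.M :=
    (LinearEquiv.ofInjective R.ι R.inj).trans
      ((LinearEquiv.ofEq _ _ hrange).trans (LinearEquiv.ofInjective R₂.ι R₂.inj).symm)
  have heι : ∀ x, R₂.ι (e x) = R.ι x := by
    intro x
    have h1 : (LinearEquiv.ofInjective R₂.ι R₂.inj) (e x) =
        (LinearEquiv.ofEq _ _ hrange) (LinearEquiv.ofInjective R.ι R.inj x) :=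
      LinearEquiv.apply_symm_apply _ _
    exact congrArg Subtype.val h1
  have heD : ∀ i x, e (F.D i x) = F₂.D i (e x) := by
    intro i x
    apply R₂.inj
    rw [heι, R.ι_D, R₂.ι_D, heι]
  have heact : ∀ t x, e (F.act t x) = F₂.act t (e x) := by
    intro t x
    apply R₂.inj
    rw [heι, R.ι_act, R₂.ι_act, heι]
  -- the automorphism of the base
  let g : F.M →ₗ[O] M0 := F₂.π ∘ₗ e.toLinearMap
  have hg : Function.Surjective g := F₂.π_surjective.comp e.surjective
  have hker : LinearMap.ker F.π = LinearMap.ker g := by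
    ext x
    rw [LinearMap.mem_ker, LinearMap.mem_ker, F.ker_π]
    change _ ↔ F₂.π (e x) = 0
    rw [F₂.ker_π, mem_iSup_range_iff e heD]
  let u : M0 ≃ₗ[O] M0 :=
    (LinearMap.quotKerEquivOfSurjective F.π F.π_surjective).symm.trans
      ((Submodule.quotEquivOfEq _ _ hker).trans (LinearMap.quotKerEquivOfSurjective g hg))
  have huπ : ∀ x, u (F.π x) = F₂.π (e x) := by
    intro x
    have h1 : (LinearMap.quotKerEquivOfSurjective F.π F.π_surjective).symm (F.π x) =
        Submodule.Quotient.mk x := by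
      rw [LinearEquiv.symm_apply_eq]
      exact (LinearMap.quotKerEquivOfSurjective_apply_mk F.π F.π_surjective x).symm
    change (LinearMap.quotKerEquivOfSurjective g hg)
      ((Submodule.quotEquivOfEq _ _ hker)
        ((LinearMap.quotKerEquivOfSurjective F.π F.π_surjective).symm (F.π x))) = _
    rw [h1, Submodule.quotEquivOfEq_mk, LinearMap.quotKerEquivOfSurjective_apply_mk]
    rfl
  refine ⟨e, u, heι, heD, heact, ?_, fun x => (huπ x).symm⟩
  intro t m
  obtain ⟨x, rfl⟩ := F.π_surjective m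
  rw [← F.π_act, huπ, huπ, heact, F₂.π_act]

end Compare

/-! ### (D3) re-pinning a morphism of levels -/

section Repin

variable {O : Type} [CommRing O] [IsLocalRing O] {𝕋 : Type} [CommRing 𝕋] [Algebra O 𝕋]
  {M0 : Type} [AddCommGroup M0] [Module O M0] {act0 : 𝕋 →ₐ[O] Module.End O M0}
  {P0 : Type} [AddCommGroup P0] [Module O P0] {actP0 : 𝕋 →ₐ[O] Module.End O P0}
  {k : ℕ} {N : Fin k → ℕ} {F F₂ : FreeLevel O 𝕋 M0 act0 k N}
  {G : FreeLevel O 𝕋 P0 actP0 k N} {f0 : M0 →ₗ[O] P0}

/-- **re-pinning a morphism of levels**: a morphism out of `F₂` and an equivariant comparison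
`e : F.M ≃ F₂.M` with `F₂.π ∘ e = u ∘ F.π` give a morphism out of `twistπ F u hu` over the SAME base
map, with underlying map `φ₂.f ∘ e`. -/
noncomputable def _root_.Fermat.Agent.GE8.RaiseP.NewLevel.LevelHom.repin (φ₂ : LevelHom F₂ G f0)
    (e : F.M ≃ₗ[O] F₂.M) (u : M0 ≃ₗ[O] M0) (hu : ∀ t x, u (act0 t x) = act0 t (u x))
    (heD : ∀ i x, e (F.D i x) = F₂.D i (e x)) (heact : ∀ t x, e (F.act t x) = F₂.act t (e x))
    (heπ : ∀ x, F₂.π (e x) = u (F.π x)) : LevelHom (twistπ F u hu) G f0 where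
  f := φ₂.f ∘ₗ e.toLinearMap
  f_D := fun i x => (congrArg φ₂.f (heD i x)).trans (φ₂.f_D i (e x))
  f_act := fun t x => (congrArg φ₂.f (heact t x)).trans (φ₂.f_act t (e x))
  f_π := fun x => (φ₂.f_π (e x)).trans (congrArg f0 (heπ x))

theorem repin_f_apply (φ₂ : LevelHom F₂ G f0)
    (e : F.M ≃ₗ[O] F₂.M) (u : M0 ≃ₗ[O] M0) (hu : ∀ t x, u (act0 t x) = act0 t (u x))
    (heD : ∀ i x, e (F.D i x) = F₂.D i (e x)) (heact : ∀ t x, e (F.act t x) = F₂.act t (e x))
    (heπ : ∀ x, F₂.π (e x) = u (F.π x)) (x : F.M) :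
    (φ₂.repin e u hu heD heact heπ).f x = φ₂.f (e x) := rfl

/-- the kernel of the re-pinned morphism is the preimage of the kernel. -/
theorem mem_ker_repin_iff (φ₂ : LevelHom F₂ G f0)
    (e : F.M ≃ₗ[O] F₂.M) (u : M0 ≃ₗ[O] M0) (hu : ∀ t x, u (act0 t x) = act0 t (u x))
    (heD : ∀ i x, e (F.D i x) = F₂.D i (e x)) (heact : ∀ t x, e (F.act t x) = F₂.act t (e x))
    (heπ : ∀ x, F₂.π (e x) = u (F.π x)) (x : F.M) :
    x ∈ LinearMap.ker (φ₂.repin e u hu heD heact heπ).f ↔ e x ∈ LinearMap.ker φ₂.f :=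
  Iff.rfl

variable {L : Type} [AddCommGroup L] [Module O L] {actL : 𝕋 →ₐ[O] Module.End O L}
  {𝔪 : Ideal 𝕋} {E : Fin k → Module.End O L}

/-- **the packaged form**: a morphism of levels out of ANY level `F₂` realised in the ambient
module gives, for any other level `F` realised in the same way (e.g. `Plug.bigLevel`), a re-pinning
`u` and a morphism out of `twistπ F u hu` over the same base map which is the SAME map on the
ambient module: `φ.f x = φ₂.f (e x)` with `R₂.ι (e x) = R.ι x`. -/
theorem exists_repin (R : Realizes F actL 𝔪 E) (R₂ : Realizes F₂ actL 𝔪 E)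
    (φ₂ : LevelHom F₂ G f0) :
    ∃ (u : M0 ≃ₗ[O] M0) (hu : ∀ t x, u (act0 t x) = act0 t (u x))
      (φ : LevelHom (twistπ F u hu) G f0) (e : F.M ≃ₗ[O] F₂.M),
      (∀ x, R₂.ι (e x) = R.ι x) ∧ (∀ x : F.M, φ.f x = φ₂.f (e x)) := by
  obtain ⟨e, u, heι, heD, heact, hu, heπ⟩ := exists_twist R R₂
  exact ⟨u, hu, φ₂.repin e u hu heD heact heπ, e, heι, fun _ => rfl⟩

end Repin

end Fermat.Agent.GE8.RaiseP.P2.Repin
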