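/-
GATE-E / E8.5 (ii) PNEW-PATCH, node (P2), file 2 (helper15): **pinned projections**.

`RealLevel.Realizes F actL 𝔪 E` (helper95) has no clause on the coinvariant projection `F.π`: for
the big levels of `GB/B3/Plug` (a `Classical.choose`) it is only determined up to an automorphism of
the base module.  The `p`-direction morphisms of levels (helper80's `NewLevel.LevelHom`) need
`G.π (f x) = f0 (F.π x)` for the CONCRETE base map `f0`, so the projection has to be pinned to the
concrete iterated transfer.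

* `Pinned R ι0 T` : `ι0 (F.π x) = T (R.ι x)` — the projection of the realised level is the restriction
  of the ambient map `T : L → Lb` (`ι0 : M0 → Lb` the realisation of the base module);
* `exists_step_pinned` : helper22's `StepAbs.exists_step` with the invariant carried along:
  `Pinned R ι0 T0 → Pinned R' ι0 (T0 ∘ CS.cores)`;
* `exists_levelHom_of_pinned` : two pinned realised levels and equivariant ambient maps `g : L → L'`,
  `gb : Lb → Lb'` with `gb ∘ T = T' ∘ g` give a `LevelHom F G f0` with `R'.ι (φ.f x) = g (R.ι x)`.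
-/
import Mathlib
import Fermat.Agent.GB.B3.StepAbs
import Fermat.Agent.GE8.RaiseP.NewLevel

set_option autoImplicit false

namespace Fermat.Agent.GE8.RaiseP.P2.StepPin

open Module Fermat.Agent.GB.B3.TWLevel Fermat.Agent.GB.B3.TowerStep Fermat.Agent.GB.B3.Loc
  Fermat.Agent.GB.B3.Loc2 Fermat.Agent.GB.B3.FreeCyclic Fermat.Agent.GB.B3.LocSummand
  Fermat.Agent.GB.B3.RealLevel Fermat.Agent.GB.B3.StepAbs Fermat.Agent.GE8.RaiseP.NewLevel

/-- the projection of a realised level is the restriction of the ambient map `T` -/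
def Pinned {O : Type} [CommRing O] {A : Type} [CommRing A] [Algebra O A]
    {M0 : Type} [AddCommGroup M0] [Module O M0] {act0 : A →ₐ[O] Module.End O M0}
    {k : ℕ} {N : Fin k → ℕ} {F : FreeLevel O A M0 act0 k N}
    {L : Type} [AddCommGroup L] [Module O L] {actL : A →ₐ[O] Module.End O L} {𝔪 : Ideal A}
    {E : Fin k → Module.End O L} (R : Realizes F actL 𝔪 E)
    {Lb : Type} [AddCommGroup Lb] [Module O Lb] (ι0 : M0 →ₗ[O] Lb) (T : L →ₗ[O] Lb) : Prop :=
  ∀ x, ι0 (F.π x) = T (R.ι x)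

/-- **the abstract tower step, with the pinned projection carried along** -/
theorem exists_step_pinned {O : Type} [CommRing O] [IsDomain O] [IsPrincipalIdealRing O]
    [IsLocalRing O] [IsAdicComplete (IsLocalRing.maximalIdeal O) O] {A : Type} [CommRing A]
    [Algebra O A] (𝔪 : Ideal A) [𝔪.IsMaximal] {M0 : Type} [AddCommGroup M0] [Module O M0]
    {act0 : A →ₐ[O] Module.End O M0} {k : ℕ} {N : Fin k → ℕ} (F : FreeLevel O A M0 act0 k N)
    {L L0 : Type} [AddCommGroup L] [Module O L] [Module.Finite O L] [Module.Free O L]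
    [AddCommGroup L0] [Module O L0] [Module.Finite O L0] [Module.Free O L0]
    (actL : A →ₐ[O] Module.End O L) (actL0 : A →ₐ[O] Module.End O L0)
    (E : Fin k → Module.End O L) (E0 : Fin k → Module.End O L0)
    (R : Realizes F actL0 𝔪 E0) (ϖ : O) (hϖ0 : ϖ ≠ 0)
    (hmax : IsLocalRing.maximalIdeal O = Ideal.span {ϖ}) (p n : ℕ) (hp : p.Prime)
    (hpϖ : (p : O) ∈ Ideal.span {ϖ}) (hq : ((p ^ n : ℕ) : O) ≠ 0)
    (CS : CycStep O L L0 (p ^ n)) (hD : ∀ a x, CS.D (actL a x) = actL a (CS.D x))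
    (hcores : ∀ a x, CS.cores (actL a x) = actL0 a (CS.cores x)) (τ : A) (hτ : τ ∉ 𝔪)
    (ht : ∀ x, CS.t x = actL τ x) (hE_pow : ∀ i, E i ^ N i = 1)
    (hE_comm : ∀ i j, E i * E j = E j * E i) (hE_D : ∀ i, CS.D * E i = E i * CS.D)
    (hE_act : ∀ a i, actL a * E i = E i * actL a)
    (hE_cores : ∀ i x, CS.cores (E i x) = E0 i (CS.cores x))
    {Lb : Type} [AddCommGroup Lb] [Module O Lb] (ι0 : M0 →ₗ[O] Lb) (T0 : L0 →ₗ[O] Lb)
    (hpin : Pinned R ι0 T0) :
    ∃ (F' : FreeLevel O A M0 act0 (k + 1) (Fin.cons (p ^ n) N : Fin (k + 1) → ℕ))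
      (R' : Realizes F' actL 𝔪 (Fin.cons CS.D E : Fin (k + 1) → Module.End O L)),
      Pinned R' ι0 (T0 ∘ₗ CS.cores) := by
  let instL : Module A L := Module.compHom L actL.toRingHom
  have towL : IsScalarTower O A L := ⟨fun o a x => by
    show actL (o • a) x = o • actL a x
    rw [map_smul]
    rfl⟩
  let instL0 : Module A L0 := Module.compHom L0 actL0.toRingHom
  have towL0 : IsScalarTower O A L0 := ⟨fun o a x => by
    show actL0 (o • a) x = o • actL0 a x
    rw [map_smul]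
    rfl⟩
  have hact : ∀ a x, actL a x = a • x := fun _ _ => rfl
  have hact0 : ∀ a x, actL0 a x = a • x := fun _ _ => rfl
  have hE_act' : ∀ (i : Fin k) (a : A) (x : L), E i (a • x) = a • E i x := fun i a x =>
    (LinearMap.congr_fun (hE_act a i) x).symm
  refine ⟨_, realizesExtend 𝔪 actL hact R hact0 ϖ hϖ0 hmax p n hp hpϖ hq CS hD hcores τ hτ ht
    hE_pow hE_comm hE_D hE_act' hE_cores, ?_⟩
  intro (x : locO (O := O) 𝔪 L)
  show ι0 (F.π ((realEquiv 𝔪 R hact0).symm (resLoc 𝔪 CS.cores hcores x)))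
    = T0 (CS.cores (x : L))
  rw [hpin, ← coe_realEquiv 𝔪 R hact0, LinearEquiv.apply_symm_apply]
  rfl

/-- **a morphism of pinned realised levels** from equivariant maps of the ambient modules -/
theorem exists_levelHom_of_pinned {O : Type} [CommRing O] [IsLocalRing O] {A : Type} [CommRing A]
    [Algebra O A] {𝔪 : Ideal A} {M0 P0 : Type} [AddCommGroup M0] [Module O M0] [AddCommGroup P0]
    [Module O P0] {act0 : A →ₐ[O] Module.End O M0} {actP0 : A →ₐ[O] Module.End O P0}
    {k : ℕ} {N : Fin k → ℕ} {F : FreeLevel O A M0 act0 k N} {G : FreeLevel O A P0 actP0 k N}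
    {L L' Lb Lb' : Type} [AddCommGroup L] [Module O L] [AddCommGroup L'] [Module O L']
    [AddCommGroup Lb] [Module O Lb] [AddCommGroup Lb'] [Module O Lb']
    {actL : A →ₐ[O] Module.End O L} {actL' : A →ₐ[O] Module.End O L'}
    {E : Fin k → Module.End O L} {E' : Fin k → Module.End O L'}
    (R : Realizes F actL 𝔪 E) (R' : Realizes G actL' 𝔪 E')
    {ι0 : M0 →ₗ[O] Lb} {T : L →ₗ[O] Lb} {ι0' : P0 →ₗ[O] Lb'} {T' : L' →ₗ[O] Lb'}
    (hpin : Pinned R ι0 T) (hpin' : Pinned R' ι0' T') (hι0' : Function.Injective ι0')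
    (g : L →ₗ[O] L') (hgact : ∀ t x, g (actL t x) = actL' t (g x))
    (hgE : ∀ i x, g (E i x) = E' i (g x))
    (gb : Lb →ₗ[O] Lb') (hsq : ∀ x, gb (T x) = T' (g x))
    (f0 : M0 →ₗ[O] P0) (hf0 : ∀ y, ι0' (f0 y) = gb (ι0 y)) :
    ∃ φ : LevelHom F G f0, ∀ x, R'.ι (φ.f x) = g (R.ι x) := by
  -- `g` carries the primary part into the primary part
  have hloc : ∀ x : F.M, g (R.ι x) ∈ LinearMap.range R'.ι := by
    intro x
    rw [R'.range]
    have hx : IsLoc actL 𝔪 (R.ι x) := (R.range _).1 ⟨x, rfl⟩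
    intro s hs
    obtain ⟨y, hy⟩ := hx s hs
    exact ⟨g y, by rw [← hgact, hy]⟩
  let e : G.M ≃ₗ[O] LinearMap.range R'.ι := LinearEquiv.ofInjective R'.ι R'.inj
  let f : F.M →ₗ[O] G.M :=
    e.symm.toLinearMap ∘ₗ (g ∘ₗ R.ι).codRestrict (LinearMap.range R'.ι) hloc
  have hfι : ∀ x, R'.ι (f x) = g (R.ι x) := by
    intro x
    have h1 : (e (f x) : L') = R'.ι (f x) := rfl
    rw [← h1]
    show ((e (e.symm ((g ∘ₗ R.ι).codRestrict (LinearMap.range R'.ι) hloc x)) :
      LinearMap.range R'.ι) : L') = _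
    rw [LinearEquiv.apply_symm_apply]
    rfl
  refine ⟨⟨f, ?_, ?_, ?_⟩, hfι⟩
  · intro i x
    apply R'.inj
    rw [hfι, R.ι_D, hgE, R'.ι_D, hfι]
  · intro t x
    apply R'.inj
    rw [hfι, R.ι_act, hgact, R'.ι_act, hfι]
  · intro x
    apply hι0'
    rw [hpin', hfι, ← hsq, ← hpin, hf0]

end Fermat.Agent.GE8.RaiseP.P2.StepPin
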