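/-
GATE-E / E8.5 (ii) PNEW-PATCH, node (P2), file 6 (helper15): **the kernel of the `p`-direction
morphisms of levels, in the binder shape of helper32's `NewAnn`**.

`Main.exists_levelHom_primeData` gives `φα φβ : LevelHom (twistπ F u hu) G _` with
`R'.ι (φα.f x) = coresq (castΘ (R.ι x))`, `R'.ι (φβ.f x) = coresDq (castΘ (R.ι x))`.  For the kernel
`K = ker (φα.f, φβ.f)` (helper80's `NewLevel.kerLevel`, `K = ker (LevelHom.prod φα φβ).f`):

* `castΘ_eq_castθ` : `Main.castΘ` is helper32's `NewAnn.castθ`;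
* `coresq_cast_dia_TH`, `coresDq_cast_dia_TH` : the transfers intertwine the twisted Hecke generators
  `⟨d⟩ ∘ T_ℓ` at the two levels;
* `new_of_ker` : `x ∈ K` ⟹ the binder `hKnew` of `NewAnn.hAnn_ker_new` (VERBATIM);
* `twist_mem_ker` : `K` is stable under every `τ` with `R.ι (τ m) = ⟨d⟩ (T_ℓ (R.ι m))`;
* `stable_of_gen` : stability under the generators of a ring gives stability under the ring;
* `exists_kerData` : at `F := Plug.bigLevel`, `R := Plug.bigReal`, in the variable context of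
  `NewAnn` (`twP`, `hιP`, `htw`, …): the data of `Main.exists_levelHom_primeData` together with
  `hK` (stability of `K` under `twP t`, ALL `t`) and `hKnew`.
-/
import Fermat.Agent.GE8.RaiseP.NewAnn
import Fermat.Agent.GE8.RaiseP.P2.Main

set_option autoImplicit false
set_option linter.unusedSectionVars false
set_option linter.style.haveILetI false

noncomputable section

open scoped MatrixGroups TensorProduct
open CongruenceSubgroup Matrix Matrix.SpecialLinearGroup ModularCurve.Period CuspForm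
open Fermat.Agent.S16_helper49 Fermat.Agent.GM.B Fermat.Agent.GM.Amalgam
open Fermat.Agent.GB.B3 Fermat.Agent.GB.B3.EisGamma0 Fermat.Agent.GB.B3.GamH
open Fermat.Agent.GJ.J2.ZStruct Fermat.Agent.GJ.J2.Lat Fermat.Agent.GJ.J2.LatAct
open Fermat.Agent.GB.B4.Twist Fermat.Agent.GB.B4.Twist.Asm Fermat.Agent.GB.B4.Twist.Coeff
open Fermat.Agent.GB.B3.TWLevel Fermat.Agent.GB.B3.RealLevel
  Fermat.Agent.GB.B3.HeckeActH Fermat.Agent.GB.B3.TWChars Fermat.Agent.GB.B3.FinalTW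
  Fermat.Agent.GB.B3.Tower Fermat.Agent.GB.B3.StepInst Fermat.Agent.GB.B3.LocTransport
  Fermat.Agent.GB.B3.Final
open Fermat.Agent.GB.B7.UqSq Fermat.Agent.GB.B7.UqEquiv
open Fermat.Agent.GB.B4.Datum.ImageRing Fermat.Agent.GB.B10.L.ThetaNew
open Fermat.Agent.GE8.RaiseP.NewLevel Fermat.Agent.GE8.RaiseP.NewAnn
open Fermat.Agent.GE8.RaiseP.P2.Pair Fermat.Agent.GE8.RaiseP.P2.Repin
  Fermat.Agent.GE8.RaiseP.P2.Main

namespace Fermat.Agent.GE8.RaiseP.P2.MainPlug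

/-! ### the two transports coincide -/

theorem castΘ_eq_castθ {N : ℕ} {Δ : Type} [CommGroup Δ] {θ θ₂ : (ZMod N)ˣ →* Δ} (h : θ = θ₂)
    (O : Type*) [AddCommGroup O] (v : Additive (GammaH θ) →+ O) :
    castΘ h O v = castθ h O v := by
  subst h
  rfl

/-! ### the transfers and the twisted Hecke generators -/

section Twist

variable {N q : ℕ} [Fact q.Prime] {Δ : Type} [CommGroup Δ] (θ' : (ZMod N)ˣ →* Δ) (hqN : ¬ q ∣ N)
  {O : Type*} [AddCommGroup O] {ℓ : ℕ} [Fact ℓ.Prime]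

/-- **`α_*` intertwines `⟨d⟩ ∘ T_ℓ`** at the two levels, character up to equality -/
theorem coresq_cast_dia_TH (θ : (ZMod (N * q))ˣ →* Δ) (hθ : θ = thQ θ' q) (d : Gamma0 (N * q))
    (hℓ : ¬ ℓ ∣ N * q) (hℓ' : ¬ ℓ ∣ N) (v : Additive (GammaH θ) →+ O) :
    coresq θ' hqN O (castΘ hθ O (diaH θ O d (TH θ O hℓ v)))
      = diaH θ' O (degenOne N q d) (TH θ' O hℓ' (coresq θ' hqN O (castΘ hθ O v))) := by
  subst hθ
  rw [castΘ_rfl, castΘ_rfl, coresq_diaH_degenOne, coresq_TH]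

/-- **`β_*` intertwines `⟨d⟩ ∘ T_ℓ`** at the two levels, character up to equality -/
theorem coresDq_cast_dia_TH (θ : (ZMod (N * q))ˣ →* Δ) (hθ : θ = thQ θ' q) (d : Gamma0 (N * q))
    (hℓ : ¬ ℓ ∣ N * q) (hℓ' : ¬ ℓ ∣ N) (v : Additive (GammaH θ) →+ O) :
    coresDq θ' hqN O (castΘ hθ O (diaH θ O d (TH θ O hℓ v)))
      = diaH θ' O (degenOne N q d) (TH θ' O hℓ' (coresDq θ' hqN O (castΘ hθ O v))) := by
  subst hθ
  rw [castΘ_rfl, castΘ_rfl, coresDq_diaH_degenOne, Fermat.Agent.GB.B7.UqEquivAll.coresDq_TH]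

end Twist

/-! ### the kernel, abstractly -/

section Ker

variable {N q : ℕ} [Fact q.Prime] {Δ : Type} [CommGroup Δ] (θ' : (ZMod N)ˣ →* Δ) (hqN : ¬ q ∣ N)
  {O : Type} [CommRing O] (θ : (ZMod (N * q))ˣ →* Δ) (hθ : θ = thQ θ' q)
  {M M' : Type} [AddCommGroup M] [Module O M] [AddCommGroup M'] [Module O M']
  (ι : M →ₗ[O] (Additive (GammaH θ) →+ O)) (ι' : M' →ₗ[O] (Additive (GammaH θ') →+ O))
  (hι' : Function.Injective ι') (fα fβ : M →ₗ[O] M')
  (hα : ∀ x, ι' (fα x) = coresq θ' hqN O (castΘ hθ O (ι x)))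
  (hβ : ∀ x, ι' (fβ x) = coresDq θ' hqN O (castΘ hθ O (ι x)))

include hα hβ in
/-- **kernel membership gives the binder `hKnew` of `NewAnn.hAnn_ker_new`** -/
theorem new_of_ker (x : M) (hx : x ∈ LinearMap.ker (fα.prod fβ)) :
    coresq θ' hqN O (castθ hθ O (ι x)) = 0 ∧ coresDq θ' hqN O (castθ hθ O (ι x)) = 0 := by
  have hx' : fα x = 0 ∧ fβ x = 0 := Prod.mk_eq_zero.1 (LinearMap.mem_ker.1 hx)
  rw [← castΘ_eq_castθ, ← hα, ← hβ, hx'.1, hx'.2, map_zero]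
  exact ⟨rfl, rfl⟩

include hι' hα hβ in
/-- **the kernel is stable under the twisted Hecke generators** -/
theorem twist_mem_ker {ℓ : ℕ} [Fact ℓ.Prime] (d : Gamma0 (N * q)) (hℓ : ¬ ℓ ∣ N * q)
    (τ : M → M) (hτ : ∀ m, ι (τ m) = diaH θ O d (TH θ O hℓ (ι m)))
    (x : M) (hx : x ∈ LinearMap.ker (fα.prod fβ)) : τ x ∈ LinearMap.ker (fα.prod fβ) := by
  have hℓ' : ¬ ℓ ∣ N := fun h => hℓ (Dvd.dvd.mul_right h q)
  have hx' : fα x = 0 ∧ fβ x = 0 := Prod.mk_eq_zero.1 (LinearMap.mem_ker.1 hx)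
  refine LinearMap.mem_ker.2 (Prod.mk_eq_zero.2 ⟨?_, ?_⟩)
  · apply hι'
    rw [hα, hτ, coresq_cast_dia_TH θ' hqN θ hθ d hℓ hℓ', ← hα, hx'.1]
    simp
  · apply hι'
    rw [hβ, hτ, coresDq_cast_dia_TH θ' hqN θ hθ d hℓ hℓ', ← hβ, hx'.2]
    simp

end Ker

/-- stability of a submodule under the generators of a ring acting through a ring hom gives
stability under the whole ring -/
theorem stable_of_gen {O : Type*} [CommRing O] {M : Type*} [AddCommGroup M] [Module O M]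
    {A : Type*} [Ring A] {gen : Set A} (hgen : Subring.closure gen = ⊤)
    (twP : A →+* Module.End O M) (K : Submodule O M)
    (h : ∀ g ∈ gen, ∀ x ∈ K, twP g x ∈ K) (t : A) : ∀ x ∈ K, twP t x ∈ K := by
  have ht : t ∈ Subring.closure gen := by rw [hgen]; exact Subring.mem_top t
  induction ht using Subring.closure_induction with
  | mem g hg => exact h g hg
  | zero => intro x _; rw [map_zero]; exact K.zero_mem
  | one => intro x hx; rw [map_one]; exact hx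
  | add a b _ _ ha hb =>
    intro x hx
    rw [map_add]
    exact K.add_mem (ha x hx) (hb x hx)
  | neg a _ ha =>
    intro x hx
    rw [map_neg]
    exact K.neg_mem (ha x hx)
  | mul a b _ _ ha hb =>
    intro x hx
    rw [map_mul]
    exact ha _ (hb x hx)

/-! ### the kernel data at the big level of `GB/B3/Plug`, in the variable context of `NewAnn` -/

section Plug

/-- local instance (Prop-valued class) -/
local instance factPrimeOffMP {S : Set ℕ} (l : PrimesOff S) : Fact (l.1 : ℕ).Prime := ⟨l.1.2⟩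

variable {Nl p : ℕ} [NeZero Nl] [hpF : Fact p.Prime] [NeZero (Nl * p)] {Kk : ℕ}
  {r e N' N'₀ : ℕ → ℕ}
variable (Sy : Symbols (Nl * p)) (hpNl : ¬ p ∣ Nl) (hrN : ∀ j, Sy.r j ∣ Nl)
variable {O : Type} [CommRing O] [IsDomain O] [IsPrincipalIdealRing O] [IsLocalRing O]
  [IsAdicComplete (IsLocalRing.maximalIdeal O) O] [Module.IsTorsionFree ℤ O]
variable (𝔪 : Ideal (Sy.𝕋 O)) [𝔪.IsMaximal]
variable (H : PrimeData (Nl * p) p Kk r e N') (H₀ : PrimeData Nl p Kk r e N'₀)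
  {ϖ : O} {s0 : Sy.ι₁} (h : Plug.Hyp Sy 𝔪 p ϖ s0)
variable (j : ℕ)
  {N₀ : ℕ} [NeZero N₀] [NeZero (N₀ * p)] (hN₀ : N₀ * p = Nl * p * ∏ i : Fin j, r i)
  (S : Finset ℕ) (hNS : ∀ q : ℕ, q.Prime → q ∣ N₀ * p → q ∈ S)
  (dℓ : PrimesOff (↑S : Set ℕ) → Gamma0 (Nl * p))
  (tw : ↥(heckeAlgebra (N₀ * p) 2 (↑S : Set ℕ)) →+*
    Module.End O ↥(parabolicHoms O (GammaH (Theta (Δs p e) H.psi j)) O))
  (htw : ∀ (l : PrimesOff (↑S : Set ℕ))
      (v : ↥(parabolicHoms O (GammaH (Theta (Δs p e) H.psi j)) O)),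
    ((tw (formsGenS (N₀ * p) (↑S : Set ℕ) l) v :
        ↥(parabolicHoms O (GammaH (Theta (Δs p e) H.psi j)) O)) :
        Additive (GammaH (Theta (Δs p e) H.psi j)) →+ O)
      = diaH (Theta (Δs p e) H.psi j) O (dℓ l) (GamH.TH (Theta (Δs p e) H.psi j) O
          (not_dvd_level (↑S : Set ℕ) (Fermat.Agent.GB.B10.L.Ann.hS_of_hNS S hNS)
            (Dvd.intro _ hN₀.symm) l)
          (v : Additive (GammaH (Theta (Δs p e) H.psi j)) →+ O)))
  (hpar : ∀ x : (Plug.bigLevel Sy 𝔪 H h j).M,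
    (Plug.bigReal Sy 𝔪 H h j).ι x ∈ parabolicHoms O (GammaH (Theta (Δs p e) H.psi j)) O)
  (twP : ↥(heckeAlgebra (N₀ * p) 2 (↑S : Set ℕ)) →+*
    Module.End O (Plug.bigLevel Sy 𝔪 H h j).M)
  (hιP : ∀ (t : ↥(heckeAlgebra (N₀ * p) 2 (↑S : Set ℕ))) (m : (Plug.bigLevel Sy 𝔪 H h j).M),
    (Plug.bigReal Sy 𝔪 H h j).ι (twP t m) =
      ((tw t ⟨(Plug.bigReal Sy 𝔪 H h j).ι m, hpar m⟩ :
        ↥(parabolicHoms O (GammaH (Theta (Δs p e) H.psi j)) O)) :
        Additive (GammaH (Theta (Δs p e) H.psi j)) →+ O))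

include htw hιP in
/-- **the `p`-new kernel of the big level `Plug.bigLevel Sy 𝔪 H h j`**: the morphisms of levels
`φα`, `φβ` of `Main.exists_levelHom_primeData` together with the two binders `hK` (stability of
`K = ker (φα.f, φβ.f)` under `twP t`, every `t`) and `hKnew` (the classes of `K` are killed by the
two transfers) of `NewAnn.hAnn_ker_new`, VERBATIM. -/
theorem exists_kerData :
    ∃ (u : M0 Sy 𝔪 (Δs p e) H.psi ≃ₗ[O] M0 Sy 𝔪 (Δs p e) H.psi)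
      (hu : ∀ t x, u (act0 Sy 𝔪 (Δs p e) H.psi t x) = act0 Sy 𝔪 (Δs p e) H.psi t (u x))
      (G : FreeLevel O (Sy.𝕋 O)
          (Base.locSub (actH (restrict Sy hrN) O (Theta (Δs p e) H₀.psi 0)) 𝔪)
          (Base.locSubAct (actH (restrict Sy hrN) O (Theta (Δs p e) H₀.psi 0)) 𝔪) j
          (Nfun p e j))
      (R' : Realizes G (actH (restrict Sy hrN) O (Theta (Δs p e) H₀.psi j)) 𝔪
          (fun i => diaLin O (Theta (Δs p e) H₀.psi j) (dfun (ddN (H.dd hpF.out)) j i)))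
      (φα : LevelHom (twistπ (Plug.bigLevel Sy 𝔪 H h j) u hu) G
        (f0αE hpNl (Δs p e) H₀.psi Sy hrN 𝔪 H.psi (Theta_eq_infl H H₀ 0)))
      (φβ : LevelHom (twistπ (Plug.bigLevel Sy 𝔪 H h j) u hu) G
        (f0βE hpNl (Δs p e) H₀.psi Sy hrN 𝔪 H.psi (Theta_eq_infl H H₀ 0))),
      (∀ x : (Plug.bigLevel Sy 𝔪 H h j).M, R'.ι (φα.f x)
        = coresq (Theta (Δs p e) H₀.psi j) hpNl O
            (castΘ (Theta_eq_infl H H₀ j) O ((Plug.bigReal Sy 𝔪 H h j).ι x))) ∧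
      (∀ x : (Plug.bigLevel Sy 𝔪 H h j).M, R'.ι (φβ.f x)
        = coresDq (Theta (Δs p e) H₀.psi j) hpNl O
            (castΘ (Theta_eq_infl H H₀ j) O ((Plug.bigReal Sy 𝔪 H h j).ι x))) ∧
      (∀ (t : ↥(heckeAlgebra (N₀ * p) 2 (↑S : Set ℕ))),
        ∀ x ∈ (LinearMap.ker (LevelHom.prod G G φα φβ).f :
            Submodule O (Plug.bigLevel Sy 𝔪 H h j).M),
          twP t x ∈ (LinearMap.ker (LevelHom.prod G G φα φβ).f :
            Submodule O (Plug.bigLevel Sy 𝔪 H h j).M)) ∧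
      (∀ x ∈ (LinearMap.ker (LevelHom.prod G G φα φβ).f :
            Submodule O (Plug.bigLevel Sy 𝔪 H h j).M),
        coresq (Theta (Δs p e) H₀.psi j) hpNl O
            (castθ (Theta_eq_infl H H₀ j) O ((Plug.bigReal Sy 𝔪 H h j).ι x)) = 0 ∧
          coresDq (Theta (Δs p e) H₀.psi j) hpNl O
            (castθ (Theta_eq_infl H H₀ j) O ((Plug.bigReal Sy 𝔪 H h j).ι x)) = 0) := by
  have hdata := exists_levelHom_primeData hpNl Sy hrN 𝔪 H H₀ h j (Plug.bigLevel Sy 𝔪 H h j)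
    (Plug.bigReal Sy 𝔪 H h j)
  obtain ⟨u, hu, G, R', φα, φβ, hα, hβ⟩ := hdata
  -- instance search does not see through `restrict Sy hrN` in the type of `G`
  letI iG : AddCommGroup G.M := FreeLevel.instAddCommGroup G
  letI mG : Module O G.M := FreeLevel.instModule G
  refine ⟨u, hu, G, R', φα, φβ, hα, hβ, ?_, ?_⟩
  · intro t
    refine stable_of_gen (TwHom.closure_range_formsGenS (N₀ * p) (↑S : Set ℕ)) twP
      (LinearMap.ker (LevelHom.prod G G φα φβ).f) ?_ t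
    rintro _ ⟨l, rfl⟩ x hx
    exact twist_mem_ker (Theta (Δs p e) H₀.psi j) hpNl (Theta (Δs p e) H.psi j)
      (Theta_eq_infl H H₀ j) (Plug.bigReal Sy 𝔪 H h j).ι R'.ι R'.inj φα.f φβ.f hα hβ (dℓ l)
      (not_dvd_level (↑S : Set ℕ) (Fermat.Agent.GB.B10.L.Ann.hS_of_hNS S hNS)
        (Dvd.intro _ hN₀.symm) l)
      (fun m => twP (formsGenS (N₀ * p) (↑S : Set ℕ) l) m)
      (fun m => (hιP _ m).trans (htw l ⟨_, hpar m⟩)) x hx
  · intro x hx
    exact new_of_ker (Theta (Δs p e) H₀.psi j) hpNl (Theta (Δs p e) H.psi j)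
      (Theta_eq_infl H H₀ j) (Plug.bigReal Sy 𝔪 H h j).ι R'.ι φα.f φβ.f hα hβ x hx

include htw hιP in
/-- **(P2) + (P4): the `p`-new kernel of the big level with its (ANN)**: the data of
`exists_kerData` together with the conclusion of `NewAnn.hAnn_ker_new` for
`K = ker (φα.f, φβ.f)`: every `t₀ ∈ O ⊗ heckeAlgebra (N₀ p) 2 S` killing `O ⊗ LamNew` kills `K`
through the restriction of `twP`. -/
theorem exists_kerData_ann [CharZero O] (hj : j ≤ Kk) (hp2 : p ≠ 2) (hpN₀ : ¬ p ∣ N₀)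
    (hpS : p ∈ S)
    (hdℓ : ∀ (l : PrimesOff (↑S : Set ℕ)) (u : (ZMod (Nl * p))ˣ),
      (u : ZMod (Nl * p)) = ((l.1 : ℕ) : ZMod (Nl * p)) →
      chi (Theta (Δs p e) H.psi j) (dℓ l) ^ 2 * Theta (Δs p e) H.psi j u = 1) :
    ∃ (u : M0 Sy 𝔪 (Δs p e) H.psi ≃ₗ[O] M0 Sy 𝔪 (Δs p e) H.psi)
      (hu : ∀ t x, u (act0 Sy 𝔪 (Δs p e) H.psi t x) = act0 Sy 𝔪 (Δs p e) H.psi t (u x))
      (G : FreeLevel O (Sy.𝕋 O)
          (Base.locSub (actH (restrict Sy hrN) O (Theta (Δs p e) H₀.psi 0)) 𝔪)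
          (Base.locSubAct (actH (restrict Sy hrN) O (Theta (Δs p e) H₀.psi 0)) 𝔪) j
          (Nfun p e j))
      (R' : Realizes G (actH (restrict Sy hrN) O (Theta (Δs p e) H₀.psi j)) 𝔪
          (fun i => diaLin O (Theta (Δs p e) H₀.psi j) (dfun (ddN (H.dd hpF.out)) j i)))
      (φα : LevelHom (twistπ (Plug.bigLevel Sy 𝔪 H h j) u hu) G
        (f0αE hpNl (Δs p e) H₀.psi Sy hrN 𝔪 H.psi (Theta_eq_infl H H₀ 0)))
      (φβ : LevelHom (twistπ (Plug.bigLevel Sy 𝔪 H h j) u hu) G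
        (f0βE hpNl (Δs p e) H₀.psi Sy hrN 𝔪 H.psi (Theta_eq_infl H H₀ 0)))
      (hK : ∀ (t : ↥(heckeAlgebra (N₀ * p) 2 (↑S : Set ℕ))),
        ∀ x ∈ (LinearMap.ker (LevelHom.prod G G φα φβ).f :
            Submodule O (Plug.bigLevel Sy 𝔪 H h j).M),
          twP t x ∈ (LinearMap.ker (LevelHom.prod G G φα φβ).f :
            Submodule O (Plug.bigLevel Sy 𝔪 H h j).M)),
      (∀ x : (Plug.bigLevel Sy 𝔪 H h j).M, R'.ι (φα.f x)
        = coresq (Theta (Δs p e) H₀.psi j) hpNl O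
            (castΘ (Theta_eq_infl H H₀ j) O ((Plug.bigReal Sy 𝔪 H h j).ι x))) ∧
      (∀ x : (Plug.bigLevel Sy 𝔪 H h j).M, R'.ι (φβ.f x)
        = coresDq (Theta (Δs p e) H₀.psi j) hpNl O
            (castΘ (Theta_eq_infl H H₀ j) O ((Plug.bigReal Sy 𝔪 H h j).ι x))) ∧
      ∀ t₀ : O ⊗[ℤ] ↥(heckeAlgebra (N₀ * p) 2 (↑S : Set ℕ)),
        (∀ (a : O),
          ∀ x ∈ (LamNew hpN₀ : AddSubgroup
            (Fermat.Agent.GB.B10.KumLevelHecke.levelData p (N₀ * p) hpS hNS).Λ),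
          (Fermat.Agent.GB.B10.KumLevelHecke.levelData p (N₀ * p) hpS hNS).heckeTensor O t₀
            (a ⊗ₜ[ℤ] x) = 0) →
        ∀ m : (LinearMap.ker (LevelHom.prod G G φα φβ).f :
            Submodule O (Plug.bigLevel Sy 𝔪 H h j).M),
          twO O (restrictTw twP (LinearMap.ker (LevelHom.prod G G φα φβ).f :
            Submodule O (Plug.bigLevel Sy 𝔪 H h j).M) hK) t₀ m = 0 := by
  have hdata := exists_kerData Sy hpNl hrN 𝔪 H H₀ h j hN₀ S hNS dℓ tw htw hpar twP hιP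
  obtain ⟨u, hu, G, R', φα, φβ, hα, hβ, hK, hKnew⟩ := hdata
  exact ⟨u, hu, G, R', φα, φβ, hK, hα, hβ,
    hAnn_ker_new Sy hpNl 𝔪 H H₀ h j hj hp2 hN₀ hpN₀ S hpS hNS dℓ hdℓ tw htw hpar twP hιP
      _ hK hKnew⟩

end Plug

end Fermat.Agent.GE8.RaiseP.P2.MainPlug
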